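import Fermat.Agent.PrimePowerEquidist.Twist

/-!
# `α p ^ k` over the primes

The logarithms are removed as for `α p`, and Weyl's criterion gives the intervals.
-/

set_option autoImplicit false

noncomputable section

namespace FA.PrimePowerEquidist

open Filter Topology Finset ArithmeticFunction
open FA.ThreePrimes (eAdd norm_eAdd eAdd_add)
open FA.Equidist (primeSet card_primeSet avg ExpMeanZero)
open FA.WaringGoldbach (powTwist)
open scoped Real Nat.Prime

/-- The sum over the primes with logarithms, for any phase. -/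
theorem norm_log_phase_le (f : ℕ → ℝ) (N : ℕ) :
    ‖∑ p ∈ primeSet N, (Real.log p : ℂ) * eAdd (f p)‖ ≤
      ‖∑ n ∈ Ioc 0 N, (Λ n : ℂ) * eAdd (f n)‖ + (Chebyshev.psi N - Chebyshev.theta N) := by
  rw [Chebyshev.psi_sub_theta_eq_sum_not_prime, Nat.floor_natCast]
  have hset : primeSet N = (Ioc 0 N).filter Nat.Prime := by
    ext p
    simp only [Equidist.primeSet, mem_filter, mem_range, mem_Ioc]
    exact ⟨fun h => ⟨⟨h.2.pos, by omega⟩, h.2⟩, fun h => ⟨by omega, h.2⟩⟩
  have hsplit : ∑ n ∈ Ioc 0 N, (Λ n : ℂ) * eAdd (f n) =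
      (∑ p ∈ primeSet N, (Real.log p : ℂ) * eAdd (f p)) +
        ∑ n ∈ (Ioc 0 N).filter (fun n => ¬ n.Prime), (Λ n : ℂ) * eAdd (f n) := by
    rw [← sum_filter_add_sum_filter_not (Ioc 0 N) Nat.Prime, hset]
    congr 1
    exact sum_congr rfl fun p hp => by rw [vonMangoldt_apply_prime (mem_filter.1 hp).2]
  rw [eq_sub_of_add_eq hsplit.symm]
  refine (norm_sub_le _ _).trans (add_le_add le_rfl ((norm_sum_le _ _).trans (le_of_eq ?_)))
  exact sum_congr rfl fun n _ => by
    rw [norm_mul, norm_eAdd, mul_one, Complex.norm_real, Real.norm_eq_abs,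
      abs_of_nonneg vonMangoldt_nonneg]

/-- **From `o (N)` with `Λ` to the mean over the primes.** -/
theorem tendsto_avg_of_twist {f : ℕ → ℝ} (hf : Tendsto
      (fun N : ℕ => ‖∑ n ∈ Ioc 0 N, (Λ n : ℂ) * eAdd (f n)‖ / N) atTop (𝓝 0)) :
    Tendsto (fun N => avg (primeSet N) fun p => eAdd (f p)) atTop (𝓝 0) := by
  obtain ⟨C, hC⟩ := Chebyshev.psi_sub_theta_le_mul_sqrt
  have hπ : Tendsto (fun N : ℕ => (π N : ℝ) * Real.log N / N) atTop (𝓝 1) := by
    refine (PNT.Summary.prime_number_theorem.comp tendsto_natCast_atTop_atTop).congr fun N => ?_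
    simp only [Function.comp_apply, Nat.floor_natCast]
  have hθ : Tendsto (fun N : ℕ => Chebyshev.theta N / N) atTop (𝓝 1) :=
    PNT.Summary.tendsto_theta.comp tendsto_natCast_atTop_atTop
  have hsqrt : Tendsto (fun N : ℕ => C * (Real.sqrt N / N)) atTop (𝓝 0) := by
    have h1 : Tendsto (fun N : ℕ => 1 / Real.sqrt N) atTop (𝓝 0) := by
      simp only [one_div]
      exact tendsto_inv_atTop_zero.comp
        (Real.tendsto_sqrt_atTop.comp tendsto_natCast_atTop_atTop)
    simpa [Real.sqrt_div_self] using h1.const_mul C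
  have hnum := ((hf.add hsqrt).add (hπ.sub hθ)).div hπ one_ne_zero
  simp only [add_zero, sub_self, zero_div] at hnum
  refine squeeze_zero_norm' ?_ hnum
  filter_upwards [eventually_ge_atTop 2] with N hN
  have hN0 : (0 : ℝ) < N := by exact_mod_cast (by omega : 0 < N)
  have hl : 0 < Real.log N := Real.log_pos (by exact_mod_cast (by omega : 1 < N))
  have hπ0 : (0 : ℝ) < π N := by
    rw [← card_primeSet]
    exact Nat.cast_pos.2 (card_pos.2 ⟨2, mem_filter.2 ⟨mem_range.2 (by omega), Nat.prime_two⟩⟩)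
  have hθN : Chebyshev.theta N = ∑ p ∈ primeSet N, Real.log p := by
    rw [Chebyshev.theta_eq_sum_Icc, Nat.floor_natCast, Equidist.primeSet, Finset.range_eq_Ico,
      Finset.Ico_add_one_right_eq_Icc]
  have key : Real.log N * ‖∑ p ∈ primeSet N, eAdd (f p)‖ ≤
      ‖∑ n ∈ Ioc 0 N, (Λ n : ℂ) * eAdd (f n)‖ + C * Real.sqrt N +
        ((π N : ℝ) * Real.log N - Chebyshev.theta N) := by
    have e : (Real.log N : ℂ) * ∑ p ∈ primeSet N, eAdd (f p) =
        (∑ p ∈ primeSet N, (Real.log p : ℂ) * eAdd (f p)) +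
          ∑ p ∈ primeSet N, ((Real.log N - Real.log p : ℝ) : ℂ) * eAdd (f p) := by
      rw [mul_sum, ← sum_add_distrib]
      exact sum_congr rfl fun p _ => by push_cast; ring
    have h := congrArg (‖·‖) e
    simp only [norm_mul, Complex.norm_real, Real.norm_eq_abs, abs_of_pos hl] at h
    rw [h]
    refine (norm_add_le _ _).trans (add_le_add ((norm_log_phase_le f N).trans
      (add_le_add le_rfl (hC N))) ((norm_sum_le _ _).trans (le_of_eq ?_)))
    rw [hθN, ← card_primeSet, ← nsmul_eq_mul, ← sum_const, ← sum_sub_distrib]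
    refine sum_congr rfl fun p hp => ?_
    obtain ⟨hp1, hpp⟩ := mem_filter.1 hp
    rw [norm_mul, norm_eAdd, mul_one, Complex.norm_real, Real.norm_eq_abs, abs_of_nonneg
      (sub_nonneg.2 (Real.log_le_log (Nat.cast_pos.2 hpp.pos)
        (Nat.cast_le.2 (Nat.lt_succ_iff.1 (mem_range.1 hp1)))))]
  rw [avg, norm_div, Complex.norm_natCast, card_primeSet, Pi.div_apply]
  rw [div_le_div_iff₀ hπ0 (by positivity)]
  have h2 := mul_le_mul_of_nonneg_left key hπ0.le
  calc ‖∑ p ∈ primeSet N, eAdd (f p)‖ * ((π N : ℝ) * Real.log N / N)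
      = (π N : ℝ) * (Real.log N * ‖∑ p ∈ primeSet N, eAdd (f p)‖) / N := by ring
    _ ≤ (π N : ℝ) * (‖∑ n ∈ Ioc 0 N, (Λ n : ℂ) * eAdd (f n)‖ + C * Real.sqrt N +
        ((π N : ℝ) * Real.log N - Chebyshev.theta N)) / N := div_le_div_of_nonneg_right h2 hN0.le
    _ = _ := by ring

/-- **The exponential mean of `γ p ^ k`.** -/
theorem tendsto_avg_pow {γ : ℝ} (hγ : Irrational γ) {k : ℕ} (hk : 1 ≤ k) :
    Tendsto (fun N => avg (primeSet N) fun p => eAdd (γ * (p : ℝ) ^ k)) atTop (𝓝 0) :=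
  tendsto_avg_of_twist (f := fun n : ℕ => γ * (n : ℝ) ^ k) (tendsto_powTwist_div hγ hk)

/-- **Weyl's condition**, with a shift. -/
theorem expMeanZero_pow {α : ℝ} (hα : Irrational α) {k : ℕ} (hk : 1 ≤ k) (β : ℝ) :
    ExpMeanZero primeSet fun p => α * (p : ℝ) ^ k + β := by
  intro h h0
  have := (tendsto_avg_pow (hα.intCast_mul h0) hk).const_mul (eAdd (h * β))
  rw [mul_zero] at this
  refine this.congr fun N => ?_
  simp only [Equidist.avg, ← mul_div_assoc, mul_sum, ← eAdd_add]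
  refine congrArg (· / _) (sum_congr rfl fun p _ => congrArg eAdd ?_)
  ring

/-- **Infinitely many primes in each interval modulo one.** -/
theorem infinite_fract_mem {α : ℝ} (hα : Irrational α) {k : ℕ} (hk : 1 ≤ k) (β : ℝ) {a b : ℝ}
    (ha : 0 ≤ a) (hab : a < b) (hb : b ≤ 1) :
    {p : ℕ | p.Prime ∧ Int.fract (α * (p : ℝ) ^ k + β) ∈ Set.Ico a b}.Infinite := by
  classical
  intro hfin
  have h := (expMeanZero_pow hα hk β).intervalMean Equidist.tendsto_card_primeSet a b ha hab.le hb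
  have h0 : Tendsto (fun N => (#hfin.toFinset : ℝ) / #(primeSet N)) atTop (𝓝 0) :=
    tendsto_const_nhds.div_atTop
      (tendsto_natCast_atTop_atTop.comp Equidist.tendsto_card_primeSet)
  have := le_of_tendsto_of_tendsto' h h0 fun N => div_le_div_of_nonneg_right (Nat.cast_le.2
    (card_le_card fun p hp => by
      rw [Set.Finite.mem_toFinset]
      exact ⟨(mem_filter.1 (mem_filter.1 hp).1).2, (mem_filter.1 hp).2⟩)) (Nat.cast_nonneg _)
  linarith

/-- **`‖α p ^ k - β‖ < ε` infinitely often.** -/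
theorem infinite_near {α : ℝ} (hα : Irrational α) {k : ℕ} (hk : 1 ≤ k) (β : ℝ) {ε : ℝ}
    (hε : 0 < ε) :
    {p : ℕ | p.Prime ∧ ThreePrimes.nearDist (α * (p : ℝ) ^ k - β) < ε}.Infinite := by
  refine (infinite_fract_mem hα hk (-β) le_rfl (lt_min hε one_pos) (min_le_right _ _)).mono
    fun p hp => ⟨hp.1, ?_⟩
  refine lt_of_le_of_lt ?_ (hp.2.2.trans_le (min_le_left _ _))
  refine (ThreePrimes.nearDist_le_abs_sub _ ⌊α * (p : ℝ) ^ k - β⌋).trans (le_of_eq ?_)
  rw [← sub_eq_add_neg, ← Int.fract, abs_of_nonneg (Int.fract_nonneg _)]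

end FA.PrimePowerEquidist

end
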