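import Fermat.Agent.Equidistribution.Primes
import Fermat.Agent.WaringGoldbach.Singular
import Fermat.Agent.WaringGoldbach.Major
import Fermat.Agent.WaringGoldbach.PrimeSum
import Fermat.Agent.WaringGoldbach.Moment

/-!
# `∑_{n ≤ P} Λ n e (γ n ^ k) = o (P)` for irrational `γ`

By Dirichlet a large `N = P ^ k` puts `γ` either on the minor arcs, where Vinogradov's bound saves
a power of `log P`, or near some `a / q` with `q ≤ (log N) ^ B`. There the sum is at most
`|∑ e (a r ^ k / q)| P / φ q`, which is small for large `q`, while for bounded `q` the distance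
`γ - a / q` is bounded below.
-/

set_option autoImplicit false

noncomputable section

namespace FA.PrimePowerEquidist

open Filter Topology Finset ArithmeticFunction
open FA.ThreePrimes FA.WaringGoldbach
open scoped Real

/-- **The complete sums tend to zero.** -/
theorem exists_unitFactor_le {k : ℕ} (hk : 1 ≤ k) {ε : ℝ} (hε : 0 < ε) :
    ∃ Q : ℕ, ∀ q : ℕ, Q < q → ∀ r ∈ unitResidues q, ‖unitFactor k q r‖ ≤ ε := by
  obtain ⟨Q, hQ⟩ := eventually_atTop.1
    ((summable_primeAbs hk (le_refl 6)).tendsto_atTop_zero.eventually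
      (eventually_le_nhds (pow_pos hε 6)))
  exact ⟨Q, fun q hq r hr => le_of_pow_le_pow_left₀ (by norm_num) hε.le
    ((single_le_sum (f := fun r : ℕ => ‖unitFactor k q r‖ ^ 6)
      (fun i _ => by positivity) hr).trans (hQ q hq.le))⟩

theorem tendsto_log_natCast : Tendsto (fun P : ℕ => Real.log P) atTop atTop :=
  Real.tendsto_log_atTop.comp tendsto_natCast_atTop_atTop

theorem eventually_log_pow_le (m : ℕ) {c : ℝ} (hc : 0 < c) :
    ∀ᶠ P : ℕ in atTop, Real.log P ^ m ≤ c * P := by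
  filter_upwards [((isLittleO_log_rpow_rpow_atTop (m : ℝ) one_pos).bound hc).natCast_atTop]
    with P hP
  have hl : 0 ≤ Real.log P := Real.log_natCast_nonneg P
  rwa [Real.norm_of_nonneg (Real.rpow_nonneg hl _), Real.rpow_natCast, Real.rpow_one,
    Real.norm_of_nonneg (Nat.cast_nonneg P)] at hP

theorem powTwist_sub_intCast (k : ℕ) (x : ℝ) (j : ℤ) (P : ℕ) :
    powTwist k (x - j) Λ P = powTwist k x Λ P := by
  refine sum_congr rfl fun n _ => congrArg (_ * ·) ?_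
  rw [← eAdd_add_intCast (x * (n : ℝ) ^ k) (-(j * (n : ℤ) ^ k))]
  push_cast
  ring_nf

theorem powTwist_one (x : ℝ) (P : ℕ) : powTwist 1 x Λ P = twist x Λ P :=
  sum_congr rfl fun n _ => by rw [pow_one, mul_comm x]

/-- **The sum is `o (P)`.** -/
theorem tendsto_powTwist_div {γ : ℝ} (hγ : Irrational γ) {k : ℕ} (hk : 1 ≤ k) :
    Tendsto (fun P : ℕ => ‖powTwist k γ Λ P‖ / P) atTop (𝓝 0) := by
  rcases eq_or_lt_of_le hk with hk1 | hk2
  · subst hk1
    simpa only [powTwist_one] using Equidist.tendsto_twist_div hγ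
  obtain ⟨B, C₁, hC₁, hminor⟩ := exists_pow_exp_sum_le (show 2 ≤ k by omega) 1
  obtain ⟨C₂, hC₂, hmajor⟩ := exists_pow_major hk (B + 1) (B + 2)
  rw [Metric.tendsto_atTop]
  intro ε hε
  obtain ⟨Q₀, hQ₀⟩ := exists_unitFactor_le hk (show 0 < ε / 4 by positivity)
  obtain ⟨ρ, hρ0, hρ⟩ : ∃ ρ : ℝ, 0 < ρ ∧ ∀ z ∈ arcCentres Q₀, ρ ≤ nearDist (γ - centre z) := by
    rcases (arcCentres Q₀).eq_empty_or_nonempty with he | hne
    · exact ⟨1, one_pos, by simp [he]⟩
    · obtain ⟨z, hz, hmin⟩ := Finset.exists_min_image _ (fun z => nearDist (γ - centre z)) hne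
      exact ⟨_, Equidist.nearDist_pos_of_irrational hγ z.2 z.1, hmin⟩
  obtain ⟨M, hM⟩ : ∃ M : ℝ, M = 3 * ρ ^ (-(1 / (k : ℝ))) := ⟨_, rfl⟩
  have hM0 : 0 ≤ M := hM ▸ by positivity
  obtain ⟨N₀, hN₀⟩ := eventually_atTop.1 ((tendsto_log_natCast.eventually (eventually_ge_atTop
      (max (max 1 ((k : ℝ) ^ B)) ((C₁ + 9 * C₂) * 4 / ε)))).and
    ((eventually_log_pow_le (B + 2) (show 0 < ε / 72 by positivity)).and
    ((eventually_log_pow_le (B + 1) (show (0 : ℝ) < 1 / 4 by norm_num)).and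
    ((tendsto_natCast_atTop_atTop (R := ℝ)).eventually (eventually_ge_atTop (4 * M / ε + 2))))))
  refine ⟨N₀, fun P hP => ?_⟩
  obtain ⟨hl, hl72, hl4, hPbig⟩ := hN₀ P hP
  simp only [max_le_iff] at hl
  obtain ⟨⟨hl1, hlk⟩, hlC⟩ := hl
  obtain ⟨l, hldef⟩ : ∃ l, l = Real.log P := ⟨_, rfl⟩
  rw [← hldef] at hl1 hlk hlC hl72 hl4
  have hl0 : 0 < l := by linarith
  have hP2 : 2 ≤ P := by
    have h0 : 0 ≤ 4 * M / ε := by positivity
    have : ((2 : ℕ) : ℝ) ≤ P := by push_cast; linarith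
    exact_mod_cast this
  have hP0 : (0 : ℝ) < P := Nat.cast_pos.2 (by omega)
  rw [Real.dist_eq, sub_zero, abs_of_nonneg (by positivity), div_lt_iff₀ hP0]
  obtain ⟨N, hN⟩ : ∃ N, N = P ^ k := ⟨_, rfl⟩
  have hNr : (N : ℝ) = (P : ℝ) ^ k := by rw [hN, Nat.cast_pow]
  have hlN : Real.log N = k * l := by rw [hNr, Real.log_pow, hldef]
  have hroot : (N : ℝ) ^ (1 / (k : ℝ)) = P := by
    rw [hNr, ← Real.rpow_natCast, ← Real.rpow_mul hP0.le,
      mul_one_div_cancel (Nat.cast_ne_zero.2 (by omega)), Real.rpow_one]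
  obtain ⟨X, hX⟩ : ∃ X : ℝ, X = ((k : ℝ) * l) ^ B := ⟨_, rfl⟩
  have hk1r : (1 : ℝ) ≤ k := by exact_mod_cast hk
  have hkl : 1 ≤ (k : ℝ) * l := one_le_mul_of_one_le_of_one_le hk1r hl1
  have hX1 : 1 ≤ X := hX ▸ one_le_pow₀ hkl
  have hX0 : 0 < X := by linarith
  have hXl : X ≤ l ^ (B + 1) := by
    rw [hX, mul_pow, pow_succ']
    exact mul_le_mul_of_nonneg_right hlk (by positivity)
  have hXN : X ≤ N := by
    refine hXl.trans (hl4.trans ?_)
    rw [hNr]
    exact le_trans (by linarith) (le_self_pow₀ (by exact_mod_cast (by omega : 1 ≤ P)) (by omega))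
  obtain ⟨Q, hQ⟩ : ∃ Q, Q = ⌊(N : ℝ) / X⌋₊ := ⟨_, rfl⟩
  have hQ0 : 0 < Q := hQ ▸ Nat.floor_pos.2 ((one_le_div hX0).2 hXN)
  have hQle : (Q : ℝ) ≤ N / X := hQ ▸ Nat.floor_le (by positivity)
  have hQlt : (N : ℝ) / X < Q + 1 := hQ ▸ Nat.lt_floor_add_one _
  obtain ⟨x, hx, hxQ⟩ := Real.exists_rat_abs_sub_le_and_den_le γ hQ0
  obtain ⟨q, hq⟩ : ∃ q, q = x.den := ⟨_, rfl⟩
  have hq0 : 0 < q := hq ▸ x.den_pos
  have : NeZero q := ⟨hq0.ne'⟩
  have hqr : (1 : ℝ) ≤ q := by exact_mod_cast hq0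
  have hunit : IsUnit (x.num : ZMod q) := by
    rw [ZMod.coe_int_isUnit_iff_isCoprime, isCoprime_comm, Int.isCoprime_iff_nat_coprime, hq]
    simpa using x.reduced
  rw [show (x : ℝ) = (x.num : ℝ) / q by rw [hq, Rat.cast_def], ← hq] at hx
  have hsave : (C₁ + 9 * C₂) * (P / l) ≤ ε / 4 * P := by
    rw [mul_div_assoc', div_le_iff₀ hl0]
    rw [div_le_iff₀ hε] at hlC
    calc (C₁ + 9 * C₂) * P ≤ l * ε / 4 * P := mul_le_mul_of_nonneg_right (by linarith) hP0.le
      _ = _ := by ring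
  have hC₁' : C₁ * (P / l) ≤ (C₁ + 9 * C₂) * (P / l) :=
    mul_le_mul_of_nonneg_right (by linarith) (by positivity)
  have hεP : 0 < ε * P := mul_pos hε hP0
  rcases le_or_gt X (q : ℝ) with hbig | hsmall
  · have happ : |γ - x.num / q| ≤ 1 / (q : ℝ) ^ 2 := by
      refine hx.trans (one_div_le_one_div_of_le (by positivity) ?_)
      rw [sq]
      refine mul_le_mul_of_nonneg_right ?_ (by linarith)
      have : (q : ℝ) ≤ Q := Nat.cast_le.2 (hq ▸ hxQ)
      linarith
    have h := hminor N q x.num γ hunit happ (by rw [hlN, ← hX]; exact hbig)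
      (by rw [hlN, ← hX]; exact ((Nat.cast_le.2 (hq ▸ hxQ)).trans hQle))
    rw [hN, rootFloor_pow hk (by omega), ← hN, hroot, hlN, pow_one] at h
    have h2 : (P : ℝ) / (k * l) ≤ P / l :=
      div_le_div_of_nonneg_left hP0.le hl0 (le_mul_of_one_le_left hl0.le hk1r)
    have h3 := mul_le_mul_of_nonneg_left h2 hC₁.le
    linarith
  obtain ⟨j, hj⟩ : ∃ j : ℤ, j = x.num / q := ⟨_, rfl⟩
  obtain ⟨r, hr⟩ : ∃ r : ℕ, (r : ℤ) = x.num % q :=
    ⟨(x.num % q).toNat, Int.toNat_of_nonneg (Int.emod_nonneg _ (by omega))⟩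
  have hnum : (x.num : ℝ) = (q : ℝ) * j + r := by
    have h1 := Int.emod_add_mul_ediv x.num q
    rw [← hj, ← hr] at h1
    have h2 : x.num = (q : ℤ) * j + r := by linarith
    exact_mod_cast h2
  have hrunit : IsUnit ((r : ℤ) : ZMod q) := by
    rw [hr, ZMod.intCast_mod]
    exact hunit
  have hrmem : r ∈ unitResidues q := by
    rw [unitResidues, mem_filter, mem_range]
    rw [Int.cast_natCast, ZMod.isUnit_iff_coprime] at hrunit
    refine ⟨?_, hrunit.symm⟩
    have := Int.emod_lt_of_pos x.num (show (0 : ℤ) < q by exact_mod_cast hq0)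
    omega
  obtain ⟨β, hβdef⟩ : ∃ β, β = γ - x.num / q := ⟨_, rfl⟩
  have hβN : |β| * N ≤ X := by
    rw [hβdef]
    refine (mul_le_mul_of_nonneg_right hx (Nat.cast_nonneg N)).trans ?_
    rw [div_lt_iff₀ hX0] at hQlt
    rw [div_mul_eq_mul_div, one_mul, div_le_iff₀ (by positivity)]
    have := le_mul_of_one_le_right (show 0 ≤ ((Q : ℝ) + 1) * X by positivity) hqr
    linarith
  have hsub : γ - (r : ℝ) / q = β + j := by
    rw [hβdef, hnum]
    field_simp
    ring
  have htw : powTwist k (((r : ℤ) : ℝ) / q + β) Λ P = powTwist k γ Λ P := by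
    rw [← powTwist_sub_intCast k γ j P]
    congr 1
    rw [Int.cast_natCast]
    linarith
  have hmaj := hmajor N P q (r : ℤ) β hP2 hN.ge
    (hN ▸ Nat.pow_lt_pow_left (Nat.lt_succ_self P) (by omega))
    (hldef ▸ hsmall.le.trans hXl)
  rw [htw, ← hldef] at hmaj
  have hmain : ‖unitFactor k q (r : ℤ) * WaringAsymptotic.weightSum (1 / (k : ℝ)) N β‖ ≤
      ε / 4 * P := by
    have hc0 : (0 : ℝ) < 1 / k := by positivity
    have hc1 : (1 : ℝ) / k ≤ 1 := (div_le_one (by linarith)).2 hk1r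
    rw [norm_mul]
    rcases le_or_gt q Q₀ with hqQ | hqQ
    · have hz : (⟨q, r⟩ : Σ _ : ℕ, ℕ) ∈ arcCentres Q₀ := by
        rw [unitResidues, mem_filter, mem_range] at hrmem
        exact mem_arcCentres.2 ⟨⟨hq0, hqQ⟩, hrmem⟩
      have hd := hρ _ hz
      rw [show γ - centre ⟨q, r⟩ = β + j from hsub, nearDist_add_intCast] at hd
      refine (mul_le_of_le_one_left (norm_nonneg _) (norm_unitFactor_le_one k q r)).trans
        ((WaringAsymptotic.norm_weightSum_le_inv hc0 hc1 N (hρ0.trans_le hd)).trans ?_)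
      have h1 : nearDist β ^ (-(1 / (k : ℝ))) ≤ ρ ^ (-(1 / (k : ℝ))) :=
        Real.rpow_le_rpow_of_nonpos hρ0 hd (by linarith)
      have h2 : 3 * nearDist β ^ (-(1 / (k : ℝ))) ≤ M := hM ▸ by linarith
      refine h2.trans ?_
      have h3 : 4 * M / ε ≤ P := by linarith
      rw [div_le_iff₀ hε] at h3
      linarith
    · exact mul_le_mul (hQ₀ q hqQ r hrmem)
        ((WaringAsymptotic.norm_weightSum_le hc0 hc1 N β).trans_eq hroot)
        (norm_nonneg _) (by positivity)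
  have herr : (C₂ * (P / l ^ (B + 2)) + 2) * (1 + 2 * π * |β| * N) ≤
      ε / 2 * P := by
    have h1 : 1 + 2 * π * |β| * N ≤ 9 * l ^ (B + 1) := by
      have h2 := mul_le_mul_of_nonneg_left (hβN.trans hXl) (show 0 ≤ 2 * π by positivity)
      have h3 : (1 : ℝ) ≤ l ^ (B + 1) := one_le_pow₀ hl1
      have h4 := mul_le_mul_of_nonneg_right Real.pi_le_four
        (show (0 : ℝ) ≤ l ^ (B + 1) by positivity)
      linarith
    refine (mul_le_mul_of_nonneg_left h1 (by positivity)).trans ?_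
    have e : C₂ * ((P : ℝ) / l ^ (B + 2)) * (9 * l ^ (B + 1)) = 9 * C₂ * (P / l) := by
      rw [show B + 2 = B + 1 + 1 from rfl, pow_succ l (B + 1)]
      field_simp
    have h5 : l ^ (B + 1) ≤ l ^ (B + 2) := pow_le_pow_right₀ hl1 (by omega)
    have h6 : 9 * C₂ * (P / l) ≤ (C₁ + 9 * C₂) * (P / l) :=
      mul_le_mul_of_nonneg_right (by linarith) (by positivity)
    rw [add_mul, e]
    linarith
  have := norm_le_norm_sub_add (powTwist k γ Λ P)
    (unitFactor k q (r : ℤ) * WaringAsymptotic.weightSum (1 / (k : ℝ)) N β)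
  linarith

end FA.PrimePowerEquidist

end
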